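import Fermat.Agent.LT.T7.H57.FoldSpec

/-!
# Row LT, tower T7, node T7.14 `RigidC`, leaf T7.14.6a-F.4 `UnfoldXC57` (registry 1914)
# helper811, OFF-MAIN

`unfoldXC811 (K) : H57.UnfoldXC57 K`, UNCONDITIONAL: for a Haar measure `τ` of the ideles, a
fundamental domain `FX` of the principal ideles and a measurable `u` with
`∫⁻_FX ∑_α ‖u(α y)‖ₑ dτ < ∞`:  `∫_FX ∑_α u(α y) dτ = ∫ u dτ`.

Proof: the general statement `unfold_general811` for a topological group with its Borel
σ-algebra, a left invariant measure and an injective homomorphism from a countable group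
(Mathlib: `IsFundamentalDomain.lintegral_eq_tsum''`, `integral_eq_tsum''`, `lintegral_tsum`,
`integral_tsum`); `K` is countable (finite dimensional over `ℚ`), `K → 𝔸_K` is injective.
-/

set_option autoImplicit false

open MeasureTheory
open scoped ENNReal

noncomputable section

namespace Fermat.Agent.LT.T7.H811

/-- A number field is countable. -/
theorem countable_numberField811 (K : Type) [Field K] [NumberField K] : Countable K :=
  (Module.finBasis ℚ K).equivFun.injective.countable

section General

variable {G : Type*} [Group G] [TopologicalSpace G] [IsTopologicalGroup G] [MeasurableSpace G]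
  [BorelSpace G] {ι : Type*} [Group ι] [Countable ι]

/-- Unfolding along an injective homomorphism from a countable group, non-negative functions. -/
theorem lintegral_unfold811 (f : ι →* G) (hf : Function.Injective f) (τ : Measure G)
    [τ.IsMulLeftInvariant] (FX : Set G) (hFX : IsFundamentalDomain f.range FX τ)
    (v : G → ℝ≥0∞) (hv : Measurable v) :
    ∫⁻ y, v y ∂τ = ∫⁻ y in FX, ∑' α : ι, v (f α * y) ∂τ := by
  have : Countable f.range := (MonoidHom.ofInjective hf).symm.injective.countable
  rw [hFX.lintegral_eq_tsum'' v]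
  rw [← (MonoidHom.ofInjective hf).toEquiv.tsum_eq
    (fun g : f.range => ∫⁻ x in FX, v (g • x) ∂τ)]
  rw [lintegral_tsum (μ := τ.restrict FX) (f := fun (α : ι) (y : G) => v (f α * y))
    (fun α => (hv.comp (measurable_const_mul (f α))).aemeasurable)]
  rfl

/-- Unfolding along an injective homomorphism from a countable group. -/
theorem unfold_general811 (f : ι →* G) (hf : Function.Injective f) (τ : Measure G)
    [τ.IsMulLeftInvariant] (FX : Set G) (hFX : IsFundamentalDomain f.range FX τ)
    (u : G → ℂ) (hu : Measurable u)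
    (hfin : ∫⁻ y in FX, ∑' α : ι, ‖u (f α * y)‖ₑ ∂τ < ⊤) :
    ∫ y in FX, ∑' α : ι, u (f α * y) ∂τ = ∫ y, u y ∂τ := by
  have : Countable f.range := (MonoidHom.ofInjective hf).symm.injective.countable
  have hnorm := lintegral_unfold811 f hf τ FX hFX (fun y => ‖u y‖ₑ) hu.enorm
  have hint : Integrable u τ := by
    refine ⟨hu.aestronglyMeasurable, ?_⟩
    rw [hasFiniteIntegral_iff_enorm, hnorm]
    exact hfin
  rw [hFX.integral_eq_tsum'' u hint]
  rw [← (MonoidHom.ofInjective hf).toEquiv.tsum_eq
    (fun g : f.range => ∫ x in FX, u (g • x) ∂τ)]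
  have hmeas : ∀ α : ι, AEStronglyMeasurable (fun y => u (f α * y)) (τ.restrict FX) :=
    fun α => (hu.comp (measurable_const_mul (f α))).aestronglyMeasurable
  rw [integral_tsum hmeas]
  · rfl
  · rw [← lintegral_tsum (μ := τ.restrict FX) (f := fun (α : ι) (y : G) => ‖u (f α * y)‖ₑ)
      (fun α => (hu.enorm.comp (measurable_const_mul (f α))).aemeasurable)]
    exact hfin.ne

end General

open Fermat.Agent.LT.H556.A0 in
theorem ratU57_injective811 (K : Type) [Field K] [NumberField K] :
    Function.Injective (H57.ratU57 K) := by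
  unfold H57.ratU57
  exact Units.map_injective (NumberField.AdeleRing.algebraMap_injective (NumberField.RingOfIntegers K) K)

/-- **T7.14.6a-F.4 `UnfoldXC57`, unconditional.** -/
theorem unfoldXC811 (K : Type) [Field K] [NumberField K] : H57.UnfoldXC57 K := by
  unfold H57.UnfoldXC57
  let _ : MeasurableSpace (Fermat.Agent.LT.H556.A0.Adl K)ˣ :=
    borel (Fermat.Agent.LT.H556.A0.Adl K)ˣ
  have : BorelSpace (Fermat.Agent.LT.H556.A0.Adl K)ˣ := ⟨rfl⟩
  have : Countable K := countable_numberField811 K
  have : Countable Kˣ := (Units.val_injective (α := K)).countable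
  intro τ hτ FX hFX u hu hfin
  have := hτ
  exact unfold_general811 (H57.ratU57 K) (ratU57_injective811 K) τ FX hFX u hu hfin

end Fermat.Agent.LT.T7.H811

end
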