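import Fermat.Agent.LT.T7.H57.FoldSpec4

/-!
# Row LT, tower T7, node T7.14 `RigidC`, leaf T7.14.6a-F.9 `WeightIdC57` (registry 2207)
# helper811, OFF-MAIN

`weightIdC811 (K) : T1.LocCompC K → T1.AdNormC K → H57.WeightIdC57 K` and
`weightIdC_of_t1_811 (K) : T1.T1Out K → H57.WeightIdC57 K`.

Tonelli twice and the left invariance of `μ`:

    ∫ Fn(g) ∫_P β(ι(p)⁻¹ g) ω dλ dμ = ∫_P ω ∫ Fn(g) β(ι(p)⁻¹ g) dμ dλ
      = ∫_P ω ∫ Fn(ι(p) g) β(g) dμ dλ = ∫ (∫_P Fn(ι(p) g) ω dλ) β(g) dμ.

The general statement is `weight_general811` (a second countable topological group with its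
Borel σ-algebra and an s-finite left invariant measure; a measurable space `P` with an s-finite
measure, a measurable map `ι : P → G`, a measurable weight).
-/

set_option autoImplicit false
set_option linter.unusedSimpArgs false
set_option linter.style.haveILetI false

open MeasureTheory
open scoped ENNReal

noncomputable section

namespace Fermat.Agent.LT.T7.H811

section General

variable {G : Type*} [Group G] [MeasurableSpace G] [MeasurableMul₂ G] [MeasurableInv G]
  {P : Type*} [MeasurableSpace P]

/-- The weight identity, general form. -/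
theorem weight_general811 (μ : Measure G) [SFinite μ] [μ.IsMulLeftInvariant]
    (lam : Measure P) [SFinite lam] (ι : P → G) (hι : Measurable ι)
    (ω : P → ℝ≥0∞) (hω : Measurable ω) (Fn β : G → ℝ≥0∞) (hF : Measurable Fn)
    (hβ : Measurable β) :
    ∫⁻ g, Fn g * (∫⁻ p, β ((ι p)⁻¹ * g) * ω p ∂lam) ∂μ
      = ∫⁻ g, (∫⁻ p, Fn (ι p * g) * ω p ∂lam) * β g ∂μ := by
  -- measurability of the two integrands on `G × P`
  have h1 : Measurable (fun q : G × P => Fn q.1 * (β ((ι q.2)⁻¹ * q.1) * ω q.2)) := by
    refine (hF.comp measurable_fst).mul (Measurable.mul ?_ (hω.comp measurable_snd))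
    exact hβ.comp (((hι.comp measurable_snd).inv).mul measurable_fst)
  have h2 : Measurable (fun q : G × P => Fn (ι q.2 * q.1) * ω q.2 * β q.1) := by
    refine Measurable.mul (Measurable.mul ?_ (hω.comp measurable_snd)) (hβ.comp measurable_fst)
    exact hF.comp ((hι.comp measurable_snd).mul measurable_fst)
  have h1' : ∀ g : G, Measurable (fun p : P => β ((ι p)⁻¹ * g) * ω p) := by
    intro g
    exact (hβ.comp ((hι.inv).mul measurable_const)).mul hω
  have h2' : ∀ g : G, Measurable (fun p : P => Fn (ι p * g) * ω p) := by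
    intro g
    exact (hF.comp (hι.mul measurable_const)).mul hω
  calc ∫⁻ g, Fn g * (∫⁻ p, β ((ι p)⁻¹ * g) * ω p ∂lam) ∂μ
      = ∫⁻ g, ∫⁻ p, Fn g * (β ((ι p)⁻¹ * g) * ω p) ∂lam ∂μ := by
        refine lintegral_congr (fun g => ?_)
        rw [lintegral_const_mul _ (h1' g)]
    _ = ∫⁻ p, ∫⁻ g, Fn g * (β ((ι p)⁻¹ * g) * ω p) ∂μ ∂lam :=
        lintegral_lintegral_swap (f := fun g p => Fn g * (β ((ι p)⁻¹ * g) * ω p)) h1.aemeasurable
    _ = ∫⁻ p, ∫⁻ g, Fn (ι p * g) * ω p * β g ∂μ ∂lam := by
        refine lintegral_congr (fun p => ?_)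
        rw [← lintegral_mul_left_eq_self (fun g => Fn g * (β ((ι p)⁻¹ * g) * ω p)) (ι p)]
        refine lintegral_congr (fun g => ?_)
        simp only [inv_mul_cancel_left]
        ring
    _ = ∫⁻ g, ∫⁻ p, Fn (ι p * g) * ω p * β g ∂lam ∂μ :=
        (lintegral_lintegral_swap (f := fun g p => Fn (ι p * g) * ω p * β g)
          h2.aemeasurable).symm
    _ = ∫⁻ g, (∫⁻ p, Fn (ι p * g) * ω p ∂lam) * β g ∂μ := by
        refine lintegral_congr (fun g => ?_)
        rw [lintegral_mul_const _ (h2' g)]

end General

section Adelic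

open Fermat.Agent.LT.H556 Fermat.Agent.LT.H556.A0

variable (K : Type) [Field K] [NumberField K]

theorem continuous_unip811 : Continuous (Fermat.Agent.LT.T3.unip K) := by
  rw [Units.continuous_iff]
  constructor
  · refine continuous_matrix (fun i j => ?_)
    fin_cases i <;> fin_cases j <;>
      simp [Fermat.Agent.LT.T3.unip, Function.comp_def] <;> fun_prop
  · refine continuous_matrix (fun i j => ?_)
    fin_cases i <;> fin_cases j <;>
      simp [Fermat.Agent.LT.T3.unip, Function.comp_def] <;> fun_prop

theorem continuous_dgA811 : Continuous (Fermat.Agent.LT.T7.Rigid.dgA (K := K)) := by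
  rw [Units.continuous_iff]
  constructor
  · refine continuous_matrix (fun i j => ?_)
    fin_cases i <;> fin_cases j <;>
      simp [Fermat.Agent.LT.T7.Rigid.dgA, Function.comp_def] <;>
      first | exact Units.continuous_val | fun_prop
  · refine continuous_matrix (fun i j => ?_)
    fin_cases i <;> fin_cases j <;>
      simp [Fermat.Agent.LT.T7.Rigid.dgA, Function.comp_def] <;>
      first | exact Units.continuous_coe_inv | fun_prop

theorem continuous_zA811 : Continuous (H57.zA57 K) := by
  rw [Units.continuous_iff]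
  constructor
  · refine continuous_matrix (fun i j => ?_)
    fin_cases i <;> fin_cases j <;>
      simp [H57.zA57, Function.comp_def] <;>
      first | exact Units.continuous_val | fun_prop
  · refine continuous_matrix (fun i j => ?_)
    fin_cases i <;> fin_cases j <;>
      simp [H57.zA57, Function.comp_def] <;>
      first | exact Units.continuous_coe_inv | fun_prop

theorem continuous_iota811 : Continuous (H57.iota57 K) := by
  unfold H57.iota57
  exact (((continuous_unip811 K).comp continuous_fst).mul
    ((continuous_dgA811 K).comp (continuous_fst.comp continuous_snd))).mul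
    ((continuous_zA811 K).comp (continuous_snd.comp continuous_snd))

attribute [local instance] Fermat.Agent.LT.T5.instMeasurableSpaceG

/-- **T7.14.6a-F.9 `WeightIdC57`** from the local compactness and the continuity of the module
(two fields of `T1.T1Out K`). -/
theorem weightIdC811 (hL : Fermat.Agent.LT.T1.LocCompC K) (hN : Fermat.Agent.LT.T1.AdNormC K) :
    H57.WeightIdC57 K := by
  unfold H57.WeightIdC57
  obtain ⟨⟨hA1, hA2, hA3⟩, hG1, hG2, hG3⟩ := hL
  haveI := hA1
  haveI := hA2
  haveI := hA3
  haveI := hG1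
  haveI := hG2
  haveI := hG3
  letI : MeasurableSpace (Adl K) := borel (Adl K)
  letI : MeasurableSpace (Adl K)ˣ := borel (Adl K)ˣ
  haveI : BorelSpace (Adl K) := ⟨rfl⟩
  haveI : BorelSpace (Adl K)ˣ := ⟨rfl⟩
  haveI : BorelSpace (G K) := ⟨rfl⟩
  haveI : SecondCountableTopology (Adl K)ᵐᵒᵖ :=
    MulOpposite.opHomeomorph.symm.secondCountableTopology
  haveI : SecondCountableTopology (Adl K)ˣ :=
    Units.isEmbedding_embedProduct.secondCountableTopology
  intro μ hμ ν hν τ hτ Fn β hF hβ
  haveI := hμ
  haveI := hν
  haveI := hτ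
  have hι : Measurable (H57.iota57 K) := (continuous_iota811 K).measurable
  have hc : Continuous (fun y : (Adl K)ˣ => H57.nrm57 K y) := hN.2.2.2
  have hω : Measurable (H57.om57 K) := by
    unfold H57.om57
    exact ENNReal.measurable_ofReal.comp
      ((hc.measurable.comp (measurable_fst.comp measurable_snd)).inv)
  exact weight_general811 μ (ν.prod (τ.prod τ)) (H57.iota57 K) hι (H57.om57 K) hω Fn β hF hβ

/-- **T7.14.6a-F.9 `WeightIdC57`** from the output of the tower T1. -/
theorem weightIdC_of_t1_811 (h : Fermat.Agent.LT.T1.T1Out K) : H57.WeightIdC57 K :=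
  weightIdC811 K h.locComp h.adNorm

end Adelic

end Fermat.Agent.LT.T7.H811

end
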