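import Fermat.Agent.LT.T7.H811.OpUpQ
import Fermat.Agent.LT.T7.H281.OpUp

/-!
# Row LT, tower T7, leaf T7.L2Q.1.F3 `OpUpQC732` (registry 2316): CLOSED -- helper811, OFF-MAIN

`opUpQC811 F : H732.OpUpQC732 F`, VERBATIM against `LT/T7/H732/SupplyQFamSpec.lean`
(helper732@d2eb0c98b, sha256 7e4f04b4), UNCONDITIONAL.

    opUpQC811 = opUpQC_of811 A B C D S I        (top: `H811/OpUpQ.lean`)

with the six sub-leaves of helper281 for the field `F`, exactly as in `H281/OpUp.lean`
(helper281@ac5223b4d): `rconvOpsC281`, `translEigC281`, `iwInvC281`, `dblInvC281` (helper281),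
`H510.shiftInvC_h510` (helper510), `H271.indepC271` (helper271); all files byte-identical copies.
-/

set_option autoImplicit false

open IsDedekindDomain NumberField

noncomputable section

namespace Fermat.Agent.LT.T7.H811

/-- **LEAF T7.L2Q.1.F3 `OpUpQC732`**, unconditional. -/
theorem opUpQC811 (F : Type) [Field F] [NumberField F] : Fermat.Agent.LT.T7.H732.OpUpQC732 F :=
  opUpQC_of811 (Fermat.Agent.LT.T7.H281.rconvOpsC281 F) (Fermat.Agent.LT.T7.H281.translEigC281 F)
    (Fermat.Agent.LT.T7.H281.iwInvC281 F) (Fermat.Agent.LT.T7.H281.dblInvC281 F)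
    (Fermat.Agent.LT.T7.H510.shiftInvC_h510 F) (Fermat.Agent.LT.T7.H271.indepC271 F)

end Fermat.Agent.LT.T7.H811

end
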