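import Fermat.Agent.LT.T7.H732.SupplyQFamSpec
import Fermat.Agent.LT.T7.H281.OpUpSpec

/-!
# Row LT, tower T7, leaf T7.L2Q.1.F3 `OpUpQC732` (registry 2316): TOP from the six sub-leaves of
# helper281 -- helper811, OFF-MAIN

    opUpQC_of811 : RconvOpsC281 F → TranslEigC281 F → IwInvC281 F → DblInvC281 F
                     → ShiftInvC281 F → IndepC281 F → H732.OpUpQC732 F

Mirror of `H281.opUpC_of281` (cyclic case) for the quadratic step (`ℓ = 2`, the common part
`H962.L2QBase962`, the pre-data `H732.L2QPre732`).  The six sub-leaves of `H281/OpUpSpec.lean`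
are statements about ONE number field, so they are used AS THEY ARE (for the field `F`).
-/

set_option autoImplicit false

open AutomorphicForm IsDedekindDomain NumberField MeasureTheory
open scoped ComplexConjugate

noncomputable section

namespace Fermat.Agent.LT.T7.H811

open Fermat.Agent.LT.H556 Fermat.Agent.LT.H556.A0 Fermat.Agent.LT.T7 Fermat.Agent.LT.T7.L2Q
  Fermat.Agent.LT.T7.H893 Fermat.Agent.LT.T7.H962 Fermat.Agent.LT.T7.H732
  Fermat.Agent.LT.T7.H281

attribute [local instance] Fermat.Agent.LT.T5.instMeasurableSpaceG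

variable {F : Type} [Field F] [NumberField F]

/-- **THE TOP OF THE LEAF T7.L2Q.1.F3.** -/
theorem opUpQC_of811 (hA : RconvOpsC281 F) (hB : TranslEigC281 F) (hC : IwInvC281 F)
    (hD : DblInvC281 F) (hS : ShiftInvC281 F) (hI : IndepC281 F) : OpUpQC732 F := by
  intro Φ B hBase g hg E hE X k m hX ψ C hψ Hg H z hHg hH hz x
  have hr : T5.IsRayGen B.R'.r := hBase.frame'.ray
  have hl : 0 < 2 := by norm_num
  have ho : ∀ j < 2, (B.o j).asIdeal ∣ B.𝔑₀ := fun j _ =>
    (hBase.mem_S' (B.o j)).1 (hBase.orbit_level j)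
  have hg1 : ∀ w : InfinitePlace F, TrivAtInf w g := hg.1
  have hg2 : ∀ v : HeightOneSpectrum (𝓞 F),
      (¬ v.asIdeal ∣ B.𝔑₀ ∨ ∃ j < 2, v = B.o j) → TrivAtFin v g := by
    intro v hv
    refine hg.2 v ?_
    rcases hv with hv | ⟨j, hj, hv⟩
    · exact Or.inl fun h => hv ((hBase.mem_S' v).1 h)
    · exact Or.inr ⟨j, hj, hv⟩
  have hΦ₁ := hE.up1_test X hX
  have hφ₂ := hE.up2_test
  -- Fubini and the translations
  have e1 := hA B.R'.μ B.R'.F hBase.frame'.frame (E.Φ₁ X) E.φ₂ ψ hΦ₁.cont hΦ₁.supp hφ₂.cont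
    hφ₂.supp hψ.inv.cusp.cont (B.o 0) E.Hg E.H' E.z' k m x
  -- the scalar of `φ₂`
  have e2 : T5.Rconv B.R'.μ E.φ₂ ψ = fun y => E.c₂ C * ψ y :=
    funext fun y => hE.up2_op ψ C hψ y
  -- stability
  have hst := isEigFn_ops281 hB hC hD hS hr hl ho hg1 hg2 hE.sysg hE.sys' hE.unif' k m hψ
  -- the scalar of `Φ₁ X`
  have e3 := hE.up1_op X hX _ C hst x
  -- independence
  have e4 := ops_indep281 hB hC hS hI hr hl ho hE.sysg hE.sys' hE.unif' hHg hH hz k m hψ x
  show T5.Rconv B.R'.μ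
      (T5.conv B.R'.μ (E.Φ₁ X) (lsum E.Hg (regL (B.o 0) E.z' E.H' k m E.φ₂))) ψ x = _
  rw [e1, e2, ops_const_mul281, Rconv_const_mul281, e3, e4]
  ring

end Fermat.Agent.LT.T7.H811

end
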